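import Fermat.Agent.LT.T7.H193.ProjSpec

/-!
# Row LT, tower T7, node T7.L2.1 `SupplyC`, sub-station PROJ: leaf PROJ.2a `HGroupC` (helper543)

OFF-MAIN.  `hGroupC543 (K) : H193.HGroupC K` VERBATIM (unconditional).

* the components `G K →* GL₂(K_w)`, `G K →* GL₂(K_v)` are group homomorphisms;
* `𝓞 K` is dense in `𝒪_v` (Mathlib `exists_valuation_sub_lt_of_integer`), hence the closure
  `𝔑 𝒪_v` of an ideal `𝔑` is an ideal of `𝒪_v`;
* `M₂(𝔑 𝒪_v)` is a two-sided ideal of `M₂(𝒪_v)`; the lower left entry of the inverse of an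
  Iwahori matrix is in the maximal ideal.
-/

set_option autoImplicit false

open IsDedekindDomain NumberField MeasureTheory

noncomputable section

namespace Fermat.Agent.LT.T7.H543

open Fermat.Agent.LT.H556 Fermat.Agent.LT.H556.A0 Fermat.Agent.LT Fermat.Agent.LT.T7.H193

variable {K : Type} [Field K] [NumberField K]

theorem val_algebraMap543 (v : HeightOneSpectrum (𝓞 K)) (k : K) :
    Valued.v (algebraMap K (v.adicCompletion K) k) = v.valuation K k :=
  HeightOneSpectrum.valuedAdicCompletion_eq_valuation' v k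

theorem exists_small543 (v : HeightOneSpectrum (𝓞 K)) {ε : ℝ} (hε : 0 < ε) :
    ∃ z : v.adicCompletion K, z ≠ 0 ∧ ‖z‖ < ε := by
  obtain ⟨π, hπ⟩ := v.valuation_exists_uniformizer K
  have hv : Valued.v (algebraMap K (v.adicCompletion K) π) = WithZero.exp (-1 : ℤ) := by
    rw [val_algebraMap543, hπ]
  have h0 : algebraMap K (v.adicCompletion K) π ≠ 0 := by
    intro h
    rw [h, map_zero] at hv
    exact WithZero.exp_ne_zero.symm hv
  have h1 : ‖algebraMap K (v.adicCompletion K) π‖ < 1 := by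
    refine Valued.toNormedField.norm_lt_one_iff.mpr ?_
    rw [hv, ← WithZero.exp_zero, WithZero.exp_lt_exp]
    norm_num
  obtain ⟨n, hn⟩ := exists_pow_lt_of_lt_one hε h1
  exact ⟨algebraMap K (v.adicCompletion K) π ^ n, pow_ne_zero n h0, by rw [norm_pow]; exact hn⟩

theorem mem_closure_iff543 {v : HeightOneSpectrum (𝓞 K)} {S : Set (v.adicCompletion K)}
    {x : v.adicCompletion K} :
    x ∈ closure S ↔ ∀ z : v.adicCompletion K, z ≠ 0 → ∃ s ∈ S, Valued.v (s - x) < Valued.v z := by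
  rw [Metric.mem_closure_iff]
  constructor
  · intro h z hz
    obtain ⟨s, hs, hd⟩ := h ‖z‖ (norm_pos_iff.mpr hz)
    refine ⟨s, hs, ?_⟩
    rw [dist_eq_norm, Valued.toNormedField.norm_lt_iff] at hd
    rw [Valuation.map_sub_swap]
    exact hd
  · intro h ε hε
    obtain ⟨z, hz0, hz⟩ := exists_small543 v hε
    obtain ⟨s, hs, hd⟩ := h z hz0
    refine ⟨s, hs, ?_⟩
    rw [dist_eq_norm]
    refine lt_trans ?_ hz
    rw [Valued.toNormedField.norm_lt_iff, Valuation.map_sub_swap]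
    exact hd

/-- The embedding of `𝓞 K` in `K_v`. -/
def emb543 (v : HeightOneSpectrum (𝓞 K)) : 𝓞 K →+* v.adicCompletion K :=
  (algebraMap K (v.adicCompletion K)).comp (algebraMap (𝓞 K) K)

theorem emb_mem543 (v : HeightOneSpectrum (𝓞 K)) (r : 𝓞 K) :
    emb543 v r ∈ v.adicCompletionIntegers K := by
  rw [HeightOneSpectrum.mem_adicCompletionIntegers]
  show Valued.v (algebraMap K (v.adicCompletion K) (algebraMap (𝓞 K) K r)) ≤ 1
  rw [val_algebraMap543]
  exact v.valuation_le_one r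

/-- `𝓞 K` is dense in `𝒪_v`. -/
theorem exists_int_approx543 (v : HeightOneSpectrum (𝓞 K)) {a : v.adicCompletion K}
    (ha : a ∈ v.adicCompletionIntegers K) {z : v.adicCompletion K} (hz : z ≠ 0) :
    ∃ r : 𝓞 K, Valued.v (emb543 v r - a) < Valued.v z := by
  have hz0 : Valued.v z ≠ 0 := (Valuation.ne_zero_iff _).mpr hz
  -- an element of `K` close to `a`
  have hd : a ∈ closure (Set.range (algebraMap K (v.adicCompletion K))) :=
    (HeightOneSpectrum.denseRange_algebraMap K v) a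
  have hopen : IsOpen ((v.adicCompletionIntegers K : Set (v.adicCompletion K))) :=
    Valued.isOpen_valuationSubring _
  have hd' : a ∈ closure ((v.adicCompletionIntegers K : Set (v.adicCompletion K))
      ∩ Set.range (algebraMap K (v.adicCompletion K))) :=
    hopen.inter_closure ⟨ha, hd⟩
  obtain ⟨_, ⟨hxi, x, rfl⟩, hx⟩ := mem_closure_iff543.mp hd' z hz
  have hxv : v.valuation K x ≤ 1 := by
    rw [← val_algebraMap543]
    exact (HeightOneSpectrum.mem_adicCompletionIntegers (𝓞 K) K v).mp hxi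
  obtain ⟨r, hr⟩ := v.exists_valuation_sub_lt_of_integer hxv (Units.mk0 _ hz0)
  refine ⟨r, ?_⟩
  have e : emb543 v r - a = algebraMap K (v.adicCompletion K) (algebraMap (𝓞 K) K r - x)
      + (algebraMap K (v.adicCompletion K) x - a) := by
    rw [map_sub]
    show algebraMap K (v.adicCompletion K) (algebraMap (𝓞 K) K r) - a = _
    ring
  rw [e]
  refine Valuation.map_add_lt _ ?_ hx
  rw [val_algebraMap543]
  exact hr


/-! ## The closure of an ideal -/

theorem mem_idealClosure_iff543 (𝔑 : Ideal (𝓞 K)) (v : HeightOneSpectrum (𝓞 K))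
    (x : v.adicCompletion K) :
    x ∈ idealClosure 𝔑 v ↔
      ∀ z : v.adicCompletion K, z ≠ 0 → ∃ n ∈ 𝔑, Valued.v (emb543 v n - x) < Valued.v z := by
  unfold idealClosure
  rw [mem_closure_iff543]
  constructor
  · intro h z hz
    obtain ⟨_, ⟨n, hn, rfl⟩, hlt⟩ := h z hz
    exact ⟨n, hn, hlt⟩
  · intro h z hz
    obtain ⟨n, hn, hlt⟩ := h z hz
    exact ⟨_, ⟨n, hn, rfl⟩, hlt⟩

theorem ic_zero543 (𝔑 : Ideal (𝓞 K)) (v : HeightOneSpectrum (𝓞 K)) :
    (0 : v.adicCompletion K) ∈ idealClosure 𝔑 v := by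
  rw [mem_idealClosure_iff543]
  intro z hz
  refine ⟨0, 𝔑.zero_mem, ?_⟩
  rw [map_zero, sub_zero, map_zero]
  exact zero_lt_iff.mpr ((Valuation.ne_zero_iff _).mpr hz)

theorem ic_add543 {𝔑 : Ideal (𝓞 K)} {v : HeightOneSpectrum (𝓞 K)} {x y : v.adicCompletion K}
    (hx : x ∈ idealClosure 𝔑 v) (hy : y ∈ idealClosure 𝔑 v) : x + y ∈ idealClosure 𝔑 v := by
  rw [mem_idealClosure_iff543] at hx hy ⊢
  intro z hz
  obtain ⟨n, hn, h1⟩ := hx z hz
  obtain ⟨n', hn', h2⟩ := hy z hz
  refine ⟨n + n', 𝔑.add_mem hn hn', ?_⟩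
  have e : emb543 v (n + n') - (x + y) = (emb543 v n - x) + (emb543 v n' - y) := by
    rw [map_add]
    ring
  rw [e]
  exact Valuation.map_add_lt _ h1 h2

theorem ic_int543 {𝔑 : Ideal (𝓞 K)} {v : HeightOneSpectrum (𝓞 K)} {x : v.adicCompletion K}
    (hx : x ∈ idealClosure 𝔑 v) : x ∈ v.adicCompletionIntegers K := by
  have hcl : IsClosed ((v.adicCompletionIntegers K : Set (v.adicCompletion K))) :=
    Valued.isClosed_valuationSubring _
  refine closure_minimal ?_ hcl hx
  rintro _ ⟨n, -, rfl⟩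
  exact emb_mem543 v n

theorem ic_mul543 {𝔑 : Ideal (𝓞 K)} {v : HeightOneSpectrum (𝓞 K)} {a x : v.adicCompletion K}
    (ha : a ∈ v.adicCompletionIntegers K) (hx : x ∈ idealClosure 𝔑 v) :
    a * x ∈ idealClosure 𝔑 v := by
  have hxi := ic_int543 hx
  rw [mem_idealClosure_iff543] at hx ⊢
  intro z hz
  obtain ⟨n, hn, h1⟩ := hx z hz
  obtain ⟨r, h2⟩ := exists_int_approx543 v ha hz
  refine ⟨r * n, 𝔑.mul_mem_left r hn, ?_⟩
  have e : emb543 v (r * n) - a * x
      = emb543 v r * (emb543 v n - x) + (emb543 v r - a) * x := by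
    rw [map_mul]
    ring
  rw [e]
  refine Valuation.map_add_lt _ ?_ ?_
  · rw [Valuation.map_mul]
    calc Valued.v (emb543 v r) * Valued.v (emb543 v n - x)
        ≤ 1 * Valued.v (emb543 v n - x) :=
          mul_le_mul_left ((HeightOneSpectrum.mem_adicCompletionIntegers (𝓞 K) K v).mp
            (emb_mem543 v r)) _
      _ = Valued.v (emb543 v n - x) := one_mul _
      _ < _ := h1
  · rw [Valuation.map_mul, mul_comm]
    calc Valued.v x * Valued.v (emb543 v r - a)
        ≤ 1 * Valued.v (emb543 v r - a) :=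
          mul_le_mul_left ((HeightOneSpectrum.mem_adicCompletionIntegers (𝓞 K) K v).mp hxi) _
      _ = Valued.v (emb543 v r - a) := one_mul _
      _ < _ := h2

theorem ic_mul_right543 {𝔑 : Ideal (𝓞 K)} {v : HeightOneSpectrum (𝓞 K)}
    {a x : v.adicCompletion K} (hx : x ∈ idealClosure 𝔑 v)
    (ha : a ∈ v.adicCompletionIntegers K) : x * a ∈ idealClosure 𝔑 v := by
  rw [mul_comm]
  exact ic_mul543 ha hx

/-! ## Matrices over `K_v` -/

section Mat

variable {v : HeightOneSpectrum (𝓞 K)}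

/-- Integral entries. -/
def IntM543 (v : HeightOneSpectrum (𝓞 K)) (A : Matrix (Fin 2) (Fin 2) (v.adicCompletion K)) :
    Prop :=
  ∀ i j, A i j ∈ v.adicCompletionIntegers K

/-- Entries in `𝔑 𝒪_v`. -/
def IdM543 (𝔑 : Ideal (𝓞 K)) (v : HeightOneSpectrum (𝓞 K))
    (A : Matrix (Fin 2) (Fin 2) (v.adicCompletion K)) : Prop :=
  ∀ i j, A i j ∈ idealClosure 𝔑 v

theorem intM_one543 : IntM543 v (1 : Matrix (Fin 2) (Fin 2) (v.adicCompletion K)) := by
  intro i j
  by_cases h : i = j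
  · rw [h, Matrix.one_apply_eq]
    exact one_mem _
  · rw [Matrix.one_apply_ne h]
    exact zero_mem _

theorem intM_mul543 {A B : Matrix (Fin 2) (Fin 2) (v.adicCompletion K)} (hA : IntM543 v A)
    (hB : IntM543 v B) : IntM543 v (A * B) := by
  intro i j
  rw [Matrix.mul_apply, Fin.sum_univ_two]
  exact add_mem (mul_mem (hA i 0) (hB 0 j)) (mul_mem (hA i 1) (hB 1 j))

theorem idM_zero543 (𝔑 : Ideal (𝓞 K)) :
    IdM543 𝔑 v (0 : Matrix (Fin 2) (Fin 2) (v.adicCompletion K)) :=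
  fun _ _ => ic_zero543 𝔑 v

theorem idM_add543 {𝔑 : Ideal (𝓞 K)} {A B : Matrix (Fin 2) (Fin 2) (v.adicCompletion K)}
    (hA : IdM543 𝔑 v A) (hB : IdM543 𝔑 v B) : IdM543 𝔑 v (A + B) :=
  fun i j => ic_add543 (hA i j) (hB i j)

theorem idM_mul_int543 {𝔑 : Ideal (𝓞 K)} {A B : Matrix (Fin 2) (Fin 2) (v.adicCompletion K)}
    (hA : IdM543 𝔑 v A) (hB : IntM543 v B) : IdM543 𝔑 v (A * B) := by
  intro i j
  rw [Matrix.mul_apply, Fin.sum_univ_two]
  exact ic_add543 (ic_mul_right543 (hA i 0) (hB 0 j)) (ic_mul_right543 (hA i 1) (hB 1 j))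

theorem int_mul_idM543 {𝔑 : Ideal (𝓞 K)} {A B : Matrix (Fin 2) (Fin 2) (v.adicCompletion K)}
    (hA : IntM543 v A) (hB : IdM543 𝔑 v B) : IdM543 𝔑 v (A * B) := by
  intro i j
  rw [Matrix.mul_apply, Fin.sum_univ_two]
  exact ic_add543 (ic_mul543 (hA i 0) (hB 0 j)) (ic_mul543 (hA i 1) (hB 1 j))

theorem intM_of_idM543 {𝔑 : Ideal (𝓞 K)} {A : Matrix (Fin 2) (Fin 2) (v.adicCompletion K)}
    (hA : IdM543 𝔑 v (A - 1)) : IntM543 v A := by
  have e : A = (A - 1) + 1 := by rw [sub_add_cancel]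
  intro i j
  rw [e, Matrix.add_apply]
  exact add_mem (ic_int543 (hA i j)) (intM_one543 i j)

/-- `A ≡ 1`, `B ≡ 1` ⟹ `A B ≡ 1`. -/
theorem idM_mul_sub_one543 {𝔑 : Ideal (𝓞 K)}
    {A B : Matrix (Fin 2) (Fin 2) (v.adicCompletion K)}
    (hA : IdM543 𝔑 v (A - 1)) (hB : IdM543 𝔑 v (B - 1)) : IdM543 𝔑 v (A * B - 1) := by
  have e : A * B - 1 = (A - 1) * B + (B - 1) := by
    rw [sub_mul, one_mul]
    abel
  rw [e]
  exact idM_add543 (idM_mul_int543 hA (intM_of_idM543 hB)) hB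

/-- `A ≡ 1`, `Q P = 1`, `P`, `Q` integral ⟹ `Q A P ≡ 1`. -/
theorem idM_conj543 {𝔑 : Ideal (𝓞 K)} {A P Q : Matrix (Fin 2) (Fin 2) (v.adicCompletion K)}
    (hA : IdM543 𝔑 v (A - 1)) (hP : IntM543 v P) (hQ : IntM543 v Q) (hQP : Q * P = 1) :
    IdM543 𝔑 v (Q * A * P - 1) := by
  have e : Q * A * P - 1 = Q * (A - 1) * P := by
    rw [mul_sub, sub_mul, mul_one, hQP]
  rw [e]
  exact idM_mul_int543 (int_mul_idM543 hQ hA) hP

/-- The lower left entry of the inverse of an Iwahori matrix. -/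
theorem iw_inv543 {A B : Matrix (Fin 2) (Fin 2) (v.adicCompletion K)} (hA : IntM543 v A)
    (hB : IntM543 v B) (hAB : A * B = 1) (h10 : Valued.v (A 1 0) < 1) :
    Valued.v (B 1 0) < 1 := by
  have hle : ∀ {x : v.adicCompletion K}, x ∈ v.adicCompletionIntegers K → Valued.v x ≤ 1 :=
    fun hx => (HeightOneSpectrum.mem_adicCompletionIntegers (𝓞 K) K v).mp hx
  -- entry (1,1)
  have e11 : A 1 0 * B 0 1 + A 1 1 * B 1 1 = 1 := by
    have := congrFun (congrFun hAB 1) 1
    rw [Matrix.mul_apply, Fin.sum_univ_two, Matrix.one_apply_eq] at this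
    exact this
  -- entry (1,0)
  have e10 : A 1 0 * B 0 0 + A 1 1 * B 1 0 = 0 := by
    have := congrFun (congrFun hAB 1) 0
    rw [Matrix.mul_apply, Fin.sum_univ_two, Matrix.one_apply_ne (by decide)] at this
    exact this
  have hlt1 : Valued.v (A 1 0 * B 0 1) < 1 := by
    rw [Valuation.map_mul, mul_comm]
    calc Valued.v (B 0 1) * Valued.v (A 1 0) ≤ 1 * Valued.v (A 1 0) :=
          mul_le_mul_left (hle (hB 0 1)) _
      _ = Valued.v (A 1 0) := one_mul _
      _ < 1 := h10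
  have hlt0 : Valued.v (A 1 0 * B 0 0) < 1 := by
    rw [Valuation.map_mul, mul_comm]
    calc Valued.v (B 0 0) * Valued.v (A 1 0) ≤ 1 * Valued.v (A 1 0) :=
          mul_le_mul_left (hle (hB 0 0)) _
      _ = Valued.v (A 1 0) := one_mul _
      _ < 1 := h10
  -- `A 1 1 * B 1 1` is a unit
  have hu : Valued.v (A 1 1 * B 1 1) = 1 := by
    have e : A 1 1 * B 1 1 = 1 - A 1 0 * B 0 1 := by rw [← e11]; ring
    rw [e, sub_eq_add_neg]
    have h' : Valued.v (-(A 1 0 * B 0 1)) < Valued.v (1 : v.adicCompletion K) := by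
      rw [Valuation.map_neg, Valuation.map_one]
      exact hlt1
    rw [Valuation.map_add_eq_of_lt_left _ h', Valuation.map_one]
  have hA11 : Valued.v (A 1 1) = 1 := by
    rw [Valuation.map_mul] at hu
    refine le_antisymm (hle (hA 1 1)) ?_
    calc (1 : WithZero (Multiplicative ℤ)) = Valued.v (A 1 1) * Valued.v (B 1 1) := hu.symm
      _ ≤ Valued.v (A 1 1) * 1 := mul_le_mul_right (hle (hB 1 1)) _
      _ = Valued.v (A 1 1) := mul_one _
  have e : A 1 1 * B 1 0 = -(A 1 0 * B 0 0) := by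
    rw [eq_neg_iff_add_eq_zero, add_comm]
    exact e10
  have h2 : Valued.v (A 1 1 * B 1 0) < 1 := by
    rw [e, Valuation.map_neg]
    exact hlt0
  rw [Valuation.map_mul, hA11, one_mul] at h2
  exact h2

end Mat


/-! ## The components of `GL₂(𝔸_K)` -/

/-- The component at the finite place `v`. -/
def evF543 (v : HeightOneSpectrum (𝓞 K)) : Adl K →+* v.adicCompletion K :=
  (RestrictedProduct.evalRingHom (fun v : HeightOneSpectrum (𝓞 K) => v.adicCompletion K) v).comp
    (RingHom.snd _ _)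

/-- The component at the infinite place `w`. -/
def evI543 (w : InfinitePlace K) : Adl K →+* w.Completion :=
  (Pi.evalRingHom (fun w : InfinitePlace K => w.Completion) w).comp (RingHom.fst _ _)

/-- The component of `g ∈ GL₂(𝔸_K)` at the finite place `v`, as a group homomorphism. -/
def finHom543 (v : HeightOneSpectrum (𝓞 K)) : G K →* GL (Fin 2) (v.adicCompletion K) :=
  Matrix.GeneralLinearGroup.map (evF543 v)

/-- The component of `g ∈ GL₂(𝔸_K)` at the infinite place `w`, as a group homomorphism. -/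
def infHom543 (w : InfinitePlace K) : G K →* GL (Fin 2) w.Completion :=
  Matrix.GeneralLinearGroup.map (evI543 w)

theorem coe_finHom543 (v : HeightOneSpectrum (𝓞 K)) (g : G K) :
    ((finHom543 v g : GL (Fin 2) (v.adicCompletion K)) :
      Matrix (Fin 2) (Fin 2) (v.adicCompletion K)) = finComp v g := rfl

theorem finComp_mul543 (v : HeightOneSpectrum (𝓞 K)) (g h : G K) :
    finComp v (g * h) = finComp v g * finComp v h := by
  rw [← coe_finHom543, ← coe_finHom543, ← coe_finHom543, map_mul]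
  rfl

theorem finComp_one543 (v : HeightOneSpectrum (𝓞 K)) : finComp v (1 : G K) = 1 := by
  rw [← coe_finHom543, map_one]
  rfl

theorem finComp_mul_inv543 (v : HeightOneSpectrum (𝓞 K)) (g : G K) :
    finComp v g * finComp v g⁻¹ = 1 := by
  rw [← finComp_mul543, mul_inv_cancel, finComp_one543]

theorem finComp_inv_mul543 (v : HeightOneSpectrum (𝓞 K)) (g : G K) :
    finComp v g⁻¹ * finComp v g = 1 := by
  rw [← finComp_mul543, inv_mul_cancel, finComp_one543]

theorem trivAtInf_iff543 (w : InfinitePlace K) (g : G K) :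
    TrivAtInf w g ↔ infHom543 w g = 1 := by
  constructor
  · intro h
    exact Units.ext (Matrix.ext fun i j => h i j)
  · intro h i j
    have h' := congrArg (fun u : GL (Fin 2) w.Completion =>
      (u : Matrix (Fin 2) (Fin 2) w.Completion) i j) h
    exact h'

theorem trivAtInf_mul543 {w : InfinitePlace K} {g h : G K} (hg : TrivAtInf w g)
    (hh : TrivAtInf w h) : TrivAtInf w (g * h) := by
  rw [trivAtInf_iff543] at hg hh ⊢
  rw [map_mul, hg, hh, one_mul]

theorem trivAtInf_inv543 {w : InfinitePlace K} {g : G K} (hg : TrivAtInf w g) :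
    TrivAtInf w g⁻¹ := by
  rw [trivAtInf_iff543] at hg ⊢
  rw [map_inv, hg, inv_one]

theorem trivAtInf_one543 (w : InfinitePlace K) : TrivAtInf w (1 : G K) := by
  rw [trivAtInf_iff543, map_one]

theorem trivAtFin_mul543 {v : HeightOneSpectrum (𝓞 K)} {g h : G K} (hg : TrivAtFin v g)
    (hh : TrivAtFin v h) : TrivAtFin v (g * h) := by
  unfold TrivAtFin at hg hh ⊢
  rw [finComp_mul543, hg, hh, one_mul]

theorem trivAtFin_inv543 {v : HeightOneSpectrum (𝓞 K)} {g : G K} (hg : TrivAtFin v g) :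
    TrivAtFin v g⁻¹ := by
  unfold TrivAtFin at hg ⊢
  have h := finComp_mul_inv543 v g
  rw [hg, one_mul] at h
  exact h

theorem trivAtFin_one543 (v : HeightOneSpectrum (𝓞 K)) : TrivAtFin v (1 : G K) :=
  finComp_one543 v

/-! ## Integrality and the Iwahori subgroups -/

theorem isIntegralAt_iff543 (v : HeightOneSpectrum (𝓞 K)) (g : G K) :
    IsIntegralAt v g ↔ IntM543 v (finComp v g) := Iff.rfl

theorem isIntegralAt_mul543 {v : HeightOneSpectrum (𝓞 K)} {g h : G K} (hg : IsIntegralAt v g)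
    (hh : IsIntegralAt v h) : IsIntegralAt v (g * h) := by
  rw [isIntegralAt_iff543] at hg hh ⊢
  rw [finComp_mul543]
  exact intM_mul543 hg hh

theorem isIntegralAt_one543 (v : HeightOneSpectrum (𝓞 K)) : IsIntegralAt v (1 : G K) := by
  rw [isIntegralAt_iff543, finComp_one543]
  exact intM_one543

theorem isIntegralAt_of_triv543 {v : HeightOneSpectrum (𝓞 K)} {g : G K} (hg : TrivAtFin v g) :
    IsIntegralAt v g := by
  rw [isIntegralAt_iff543]
  unfold TrivAtFin at hg
  rw [hg]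
  exact intM_one543

theorem inIwahori_mul543 {v : HeightOneSpectrum (𝓞 K)} {g h : G K} (hg : T5.InIwahori v g)
    (hh : T5.InIwahori v h) : T5.InIwahori v (g * h) := by
  obtain ⟨g1, g2, g3⟩ := hg
  obtain ⟨h1, h2, h3⟩ := hh
  have hle : ∀ {x : v.adicCompletion K}, x ∈ v.adicCompletionIntegers K → Valued.v x ≤ 1 :=
    fun hx => (HeightOneSpectrum.mem_adicCompletionIntegers (𝓞 K) K v).mp hx
  refine ⟨isIntegralAt_mul543 g1 h1, ?_, ?_⟩
  · rw [mul_inv_rev]
    exact isIntegralAt_mul543 h2 g2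
  · rw [finComp_mul543, Matrix.mul_apply, Fin.sum_univ_two]
    refine Valuation.map_add_lt _ ?_ ?_
    · rw [Valuation.map_mul, mul_comm]
      calc Valued.v (finComp v h 0 0) * Valued.v (finComp v g 1 0)
          ≤ 1 * Valued.v (finComp v g 1 0) := mul_le_mul_left (hle (h1 0 0)) _
        _ = Valued.v (finComp v g 1 0) := one_mul _
        _ < 1 := g3
    · rw [Valuation.map_mul]
      calc Valued.v (finComp v g 1 1) * Valued.v (finComp v h 1 0)
          ≤ 1 * Valued.v (finComp v h 1 0) := mul_le_mul_left (hle (g1 1 1)) _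
        _ = Valued.v (finComp v h 1 0) := one_mul _
        _ < 1 := h3

theorem inIwahori_inv543 {v : HeightOneSpectrum (𝓞 K)} {g : G K} (hg : T5.InIwahori v g) :
    T5.InIwahori v g⁻¹ := by
  obtain ⟨g1, g2, g3⟩ := hg
  refine ⟨g2, ?_, iw_inv543 g1 g2 (finComp_mul_inv543 v g) g3⟩
  rw [inv_inv]
  exact g1

theorem inIwahori_one543 (v : HeightOneSpectrum (𝓞 K)) : T5.InIwahori v (1 : G K) := by
  refine ⟨isIntegralAt_one543 v, ?_, ?_⟩
  · rw [inv_one]
    exact isIntegralAt_one543 v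
  · rw [finComp_one543, Matrix.one_apply_ne (by decide), map_zero]
    exact zero_lt_one

/-- An Iwahori element of the orbit is integral with integral inverse at every finite place. -/
theorem isIwElt_int543 {l : ℕ} {o : ℕ → HeightOneSpectrum (𝓞 K)} {i : G K}
    (hi : IsIwElt l o i) (v : HeightOneSpectrum (𝓞 K)) :
    IsIntegralAt v i ∧ IsIntegralAt v i⁻¹ := by
  by_cases hv : ∀ j < l, v ≠ o j
  · have h := hi.2.1 v hv
    exact ⟨isIntegralAt_of_triv543 h, isIntegralAt_of_triv543 (trivAtFin_inv543 h)⟩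
  · push Not at hv
    obtain ⟨j, hj, rfl⟩ := hv
    exact ⟨(hi.2.2 j hj).1, (hi.2.2 j hj).2.1⟩

/-! ## The level group -/

theorem inLevelGroup_iff543 (𝔑 : Ideal (𝓞 K)) (u : G K) :
    InLevelGroup 𝔑 u ↔ (∀ w : InfinitePlace K, TrivAtInf w u) ∧
      ∀ v : HeightOneSpectrum (𝓞 K),
        IdM543 𝔑 v (finComp v u - 1) ∧ IdM543 𝔑 v (finComp v u⁻¹ - 1) := by
  constructor
  · intro h
    exact ⟨h.1, fun v => ⟨fun i j => (h.2 v i j).1, fun i j => (h.2 v i j).2⟩⟩
  · intro h
    exact ⟨h.1, fun v i j => ⟨(h.2 v).1 i j, (h.2 v).2 i j⟩⟩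

/-- **Leaf PROJ.2a `HGroupC`.** -/
theorem hGroupC543 (K : Type) [Field K] [NumberField K] : HGroupC K := by
  intro 𝔑₀ l o
  refine ⟨?_, ?_, ?_, ?_, ?_, ?_, ?_⟩
  · intro i i' hi hi'
    exact ⟨fun w => trivAtInf_mul543 (hi.1 w) (hi'.1 w),
      fun v hv => trivAtFin_mul543 (hi.2.1 v hv) (hi'.2.1 v hv),
      fun j hj => inIwahori_mul543 (hi.2.2 j hj) (hi'.2.2 j hj)⟩
  · intro i hi
    exact ⟨fun w => trivAtInf_inv543 (hi.1 w), fun v hv => trivAtFin_inv543 (hi.2.1 v hv),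
      fun j hj => inIwahori_inv543 (hi.2.2 j hj)⟩
  · intro u u' hu hu'
    rw [inLevelGroup_iff543] at hu hu' ⊢
    refine ⟨fun w => trivAtInf_mul543 (hu.1 w) (hu'.1 w), fun v => ⟨?_, ?_⟩⟩
    · rw [finComp_mul543]
      exact idM_mul_sub_one543 (hu.2 v).1 (hu'.2 v).1
    · rw [mul_inv_rev, finComp_mul543]
      exact idM_mul_sub_one543 (hu'.2 v).2 (hu.2 v).2
  · intro u hu
    rw [inLevelGroup_iff543] at hu ⊢
    refine ⟨fun w => trivAtInf_inv543 (hu.1 w), fun v => ⟨(hu.2 v).2, ?_⟩⟩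
    rw [inv_inv]
    exact (hu.2 v).1
  · rw [inLevelGroup_iff543]
    refine ⟨fun w => trivAtInf_one543 w, fun v => ⟨?_, ?_⟩⟩
    · rw [finComp_one543, sub_self]
      exact idM_zero543 𝔑₀
    · rw [inv_one, finComp_one543, sub_self]
      exact idM_zero543 𝔑₀
  · exact ⟨fun w => trivAtInf_one543 w, fun v _ => trivAtFin_one543 v,
      fun j _ => inIwahori_one543 (o j)⟩
  · intro i u hi hu
    rw [inLevelGroup_iff543] at hu ⊢
    refine ⟨fun w => trivAtInf_mul543 (trivAtInf_mul543 (trivAtInf_inv543 (hi.1 w)) (hu.1 w))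
      (hi.1 w), fun v => ⟨?_, ?_⟩⟩
    · obtain ⟨h1, h2⟩ := isIwElt_int543 hi v
      rw [finComp_mul543, finComp_mul543]
      exact idM_conj543 (hu.2 v).1 h1 h2 (finComp_inv_mul543 v i)
    · obtain ⟨h1, h2⟩ := isIwElt_int543 hi v
      have e : (i⁻¹ * u * i)⁻¹ = i⁻¹ * u⁻¹ * i := by
        rw [mul_inv_rev, mul_inv_rev, inv_inv, mul_assoc]
      rw [e, finComp_mul543, finComp_mul543]
      exact idM_conj543 (hu.2 v).2 h1 h2 (finComp_inv_mul543 v i)

end Fermat.Agent.LT.T7.H543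

end
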