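import Mathlib
import Fermat.Agent.LT.T7.H305.MatchCut
import Fermat.Agent.LT.T6.H420.GLTop
import Fermat.Agent.LT.T6.H584.Comm2
import Fermat.Agent.LT.T7.H584.Cutoff

/-!
# Row LT, tower T7, leaf C2.7.2 `LocCutC305` (helper543), OFF-MAIN

`locCutC543 : H305.LocCutC305`, VERBATIM the Prop of `LT/T7/H305/MatchCut.lean`
(helper305@56ddcdc02), UNCONDITIONAL.

Proof.  `GL₂(k)` is a locally compact, `σ`-compact Hausdorff group (helper420, `T6/H420/GLTop`),
the twisted centraliser `T` of `δ` is closed (`continuous_glAut`) and commutative (it commutes with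
the regular element `N δ`: helper584 `twCent_mul_twN584`, `commute_of_reg584`), so a Haar measure of
`T` is right invariant; `exists_cutoff584` (helper584, `T7/H584/Cutoff`).
-/

set_option autoImplicit false
set_option linter.style.haveILetI false
set_option linter.unusedSectionVars false

open MeasureTheory

noncomputable section

namespace Fermat.Agent.LT.T7.H543C

open Fermat.Agent.LT Fermat.Agent.LT.T6 Fermat.Agent.LT.T7 Fermat.Agent.LT.T7.H305

section Local

variable {k : Type} [Field k] [Valued k T6.Γ₀]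

/-- `(glAut s)^[m] x` has the entries `(s ^ m)` of the entries of `x`. -/
theorem glAut_iterate_apply543 (s : k ≃+* k) (m : ℕ) (x : GL (Fin 2) k) (i j : Fin 2) :
    (((T6.glAut s)^[m] x : GL (Fin 2) k) : Matrix (Fin 2) (Fin 2) k) i j
      = (s ^ m) ((x : Matrix (Fin 2) (Fin 2) k) i j) := by
  induction m with
  | zero => simp
  | succ m ih =>
    rw [Function.iterate_succ_apply', pow_succ']
    show s ((((T6.glAut s)^[m] x : GL (Fin 2) k) : Matrix (Fin 2) (Fin 2) k) i j) = _
    rw [ih]
    rfl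

theorem glAut_iterate_eq543 (s : k ≃+* k) (l : ℕ) (hsl : ∀ y : k, (s ^ l) y = y)
    (x : GL (Fin 2) k) : (T6.glAut s)^[l] x = x := by
  apply Units.ext
  ext i j
  rw [glAut_iterate_apply543, hsl]

/-- The twisted centraliser of `δ` is commutative if `N δ` is regular. -/
theorem twCent_comm543 (s : k ≃+* k) (l : ℕ) (hsl : ∀ y : k, (s ^ l) y = y)
    (δ : GL (Fin 2) k) (hreg : T6.IsReg (T6.twNorm s l δ))
    (t u : T6.twCentSub (T6.glAut s) δ) : t * u = u * t := by
  have ht : (t : GL (Fin 2) k) * T6.twNorm s l δ = T6.twNorm s l δ * (t : GL (Fin 2) k) := by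
    have h := T6.H584.twCent_mul_twN584 (T6.glAut s) δ (t : GL (Fin 2) k) t.2 l
    rw [glAut_iterate_eq543 s l hsl] at h
    exact h
  have hu : (u : GL (Fin 2) k) * T6.twNorm s l δ = T6.twNorm s l δ * (u : GL (Fin 2) k) := by
    have h := T6.H584.twCent_mul_twN584 (T6.glAut s) δ (u : GL (Fin 2) k) u.2 l
    rw [glAut_iterate_eq543 s l hsl] at h
    exact h
  have hd : ((T6.twNorm s l δ : GL (Fin 2) k) : Matrix (Fin 2) (Fin 2) k).trace ^ 2
      - 4 * ((T6.twNorm s l δ : GL (Fin 2) k) : Matrix (Fin 2) (Fin 2) k).det ≠ 0 :=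
    hreg.ne_zero
  have hm := T6.H584.commute_of_reg584
    ((T6.twNorm s l δ : GL (Fin 2) k) : Matrix (Fin 2) (Fin 2) k)
    ((t : GL (Fin 2) k) : Matrix (Fin 2) (Fin 2) k)
    ((u : GL (Fin 2) k) : Matrix (Fin 2) (Fin 2) k) hd
    (by rw [← Units.val_mul, ← Units.val_mul, ht])
    (by rw [← Units.val_mul, ← Units.val_mul, hu])
  apply Subtype.ext
  apply Units.ext
  rw [Subgroup.coe_mul, Subgroup.coe_mul, Units.val_mul, Units.val_mul]
  exact hm

/-- The twisted centraliser is closed. -/
theorem isClosed_twCent543 {q : ℕ} (h : T6.IsLocalField k q) (s : k ≃+* k)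
    (hs : ∀ y : k, Valued.v (s y) = Valued.v y) (δ : GL (Fin 2) k) :
    IsClosed ((T6.twCentSub (T6.glAut s) δ : Subgroup (GL (Fin 2) k)) : Set (GL (Fin 2) k)) := by
  have hc : Continuous (T6.glAut s) := T6.H420.continuous_glAut h s hs
  have hf : Continuous fun x : GL (Fin 2) k => x⁻¹ * δ * T6.glAut s x :=
    (continuous_inv.mul continuous_const).mul hc
  exact isClosed_eq hf continuous_const

end Local

/-- **LEAF C2.7.2 `LocCutC305`.** -/
theorem locCutC543 : LocCutC305 := by
  intro k _ _ q h l s hs _ hsl δ hreg μT hμT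
  haveI : LocallyCompactSpace (GL (Fin 2) k) := T6.H420.locallyCompactSpace_GL h
  haveI : SigmaCompactSpace (GL (Fin 2) k) := T6.H420.sigmaCompactSpace_GL h
  letI : MeasurableSpace (T6.twCentSub (T6.glAut s) δ) := borel _
  haveI : BorelSpace (T6.twCentSub (T6.glAut s) δ) := ⟨rfl⟩
  haveI : μT.IsHaarMeasure := hμT
  haveI : μT.IsMulRightInvariant := by
    refine ⟨fun g => ?_⟩
    have e : (fun t : T6.twCentSub (T6.glAut s) δ => t * g) = fun t => g * t := by
      funext t
      exact twCent_comm543 s l hsl δ hreg t g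
    rw [e]
    exact map_mul_left_eq_self μT g
  obtain ⟨β, hβc, hβ0, -, hβ1⟩ :=
    H584.exists_cutoff584 (T6.twCentSub (T6.glAut s) δ) μT (isClosed_twCent543 h s hs δ)
  exact ⟨β, hβc, hβ0, hβ1⟩

end Fermat.Agent.LT.T7.H543C

end
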